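import Fermat.Agent.PrimeRace.Series
import Fermat.Agent.Root.SummaryPrimeNumberTheorem

/-!
# The squares of the primes in the weighted race modulo `4`

`∑_{n ≤ x} χ Λ n (x - n)` over the proper powers is at least `(2/3 - ε) x √x` for large `x`: the
squares give `∑_{m ≤ √x} Λ m (x - m ²)`, the higher powers `O (x ^ (7/5))`.
-/

set_option autoImplicit false

noncomputable section

namespace FA.ChebyshevBias

open Filter Topology
open FA.PrimeRace (powPart sqPart cubePart twoPart)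
open scoped ArithmeticFunction.vonMangoldt

/-- A series convergent at `σ` bounds the sum of the coefficients by `N ^ σ`. -/
theorem exists_sum_abs_le {a : ℕ → ℝ} {σ : ℝ} (hσ : 0 ≤ σ)
    (h : LSeriesSummable (fun n => (a n : ℂ)) (σ : ℂ)) :
    ∃ S : ℝ, 0 ≤ S ∧ ∀ y : ℝ, 1 ≤ y →
      ∑ n ∈ Finset.Icc 1 ⌊y⌋₊, |a n| ≤ S * y ^ σ := by
  refine ⟨∑' n, ‖LSeries.term (fun n => (a n : ℂ)) (σ : ℂ) n‖,
    tsum_nonneg fun n => norm_nonneg _, fun y hy => ?_⟩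
  refine le_trans ?_ (mul_le_mul_of_nonneg_right
    ((summable_norm_iff.2 h).sum_le_tsum (Finset.Icc 1 ⌊y⌋₊) fun n _ => norm_nonneg _)
    (Real.rpow_nonneg (by linarith) _))
  rw [Finset.sum_mul]
  refine Finset.sum_le_sum fun n hn => ?_
  obtain ⟨hn1, hn2⟩ := Finset.mem_Icc.1 hn
  have hn0 : (0 : ℝ) < n := Nat.cast_pos.2 hn1
  rw [LSeries.norm_term_eq, if_neg (by omega), Complex.norm_real, Real.norm_eq_abs,
    Complex.ofReal_re, div_mul_eq_mul_div, le_div_iff₀ (Real.rpow_pos_of_pos hn0 _)]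
  exact mul_le_mul_of_nonneg_left (Real.rpow_le_rpow hn0.le
    ((Nat.le_floor_iff (by linarith)).1 hn2) hσ) (abs_nonneg _)

/-- A linear lower bound for `ψ`. -/
theorem exists_psi_ge {a : ℝ} (ha : a < 1) :
    ∃ B : ℝ, 0 ≤ B ∧ ∀ M : ℕ, a * M - B ≤ ∑ m ∈ Finset.Icc 1 M, Λ m := by
  have h := FA.PNT.Summary.tendsto_psi.eventually_const_le ha
  obtain ⟨X, hX⟩ := eventually_atTop.1 h
  refine ⟨|a| * max X 1, by positivity, fun M => ?_⟩
  have hnn : 0 ≤ ∑ m ∈ Finset.Icc 1 M, Λ m :=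
    Finset.sum_nonneg fun m _ => ArithmeticFunction.vonMangoldt_nonneg
  by_cases hM : max X 1 ≤ (M : ℝ)
  · have h1 := hX M ((le_max_left _ _).trans hM)
    have hMpos : (0 : ℝ) < M := by linarith [le_max_right X 1]
    rw [le_div_iff₀ hMpos, Chebyshev.psi_eq_sum_Icc, Nat.floor_natCast] at h1
    have hsub : ∑ m ∈ Finset.Icc 0 M, Λ m = ∑ m ∈ Finset.Icc 1 M, Λ m :=
      (Finset.sum_subset (Finset.Icc_subset_Icc_left zero_le_one) fun m hm hm' => by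
        simp only [Finset.mem_Icc] at hm hm'
        rw [show m = 0 by omega, ArithmeticFunction.map_zero]).symm
    nlinarith [abs_nonneg a, le_max_right X 1]
  · have : a * M ≤ |a| * max X 1 := le_trans (mul_le_mul_of_nonneg_right (le_abs_self a)
      (Nat.cast_nonneg M)) (mul_le_mul_of_nonneg_left (not_le.1 hM).le (abs_nonneg a))
    linarith

/-- `∑_{m ≤ M} Λ m (M ² - m ²) ≥ (2 a / 3) M ³ - O (M ²)`. -/
theorem sum_sq_weight_ge {a B : ℝ} (ha : 0 ≤ a) (hB : 0 ≤ B)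
    (h : ∀ M : ℕ, a * M - B ≤ ∑ m ∈ Finset.Icc 1 M, Λ m) (M : ℕ) :
    2 * a / 3 * (M : ℝ) ^ 3 - (a + B) * (M : ℝ) ^ 2 ≤
      ∑ m ∈ Finset.Icc 1 M, Λ m * ((M : ℝ) ^ 2 - (m : ℝ) ^ 2) := by
  induction M with
  | zero => simp
  | succ M ih =>
    rw [Finset.sum_Icc_succ_top (by omega), sub_self, mul_zero, add_zero]
    have e : ∑ m ∈ Finset.Icc 1 M, Λ m * (((M + 1 : ℕ) : ℝ) ^ 2 - (m : ℝ) ^ 2) =
        (∑ m ∈ Finset.Icc 1 M, Λ m * ((M : ℝ) ^ 2 - (m : ℝ) ^ 2)) +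
          (2 * (M : ℝ) + 1) * ∑ m ∈ Finset.Icc 1 M, Λ m := by
      rw [Finset.mul_sum, ← Finset.sum_add_distrib]
      exact Finset.sum_congr rfl fun m _ => by push_cast; ring
    have hM : (0 : ℝ) ≤ M := Nat.cast_nonneg M
    have hw := mul_le_mul_of_nonneg_left (h M) (show 0 ≤ 2 * (M : ℝ) + 1 by linarith)
    have h1 : 0 ≤ a * M := mul_nonneg ha hM
    have h2 : 0 ≤ B * M := mul_nonneg hB hM
    rw [e]
    push_cast
    linarith

theorem sqPart_sq (m : ℕ) : sqPart (m * m) = Λ m - twoPart m := by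
  rcases eq_or_ne m 0 with rfl | hm
  · simp [sqPart, twoPart]
  have hodd : (m * m) % 2 = m % 2 := by
    rw [Nat.mul_mod]
    rcases Nat.mod_two_eq_zero_or_one m with h | h <;> simp [h]
  rw [sqPart, twoPart, hodd, ← pow_two, ArithmeticFunction.vonMangoldt_apply_pow two_ne_zero]
  rcases Nat.mod_two_eq_zero_or_one m with h | h
  · rw [if_neg (fun hh => by omega), if_pos h, sub_self]
  · rw [if_pos ⟨⟨m, pow_two m⟩, h⟩, if_neg (by omega), sub_zero]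

theorem sqPart_nonneg (n : ℕ) : 0 ≤ sqPart n := by
  rw [sqPart]
  split_ifs
  · exact ArithmeticFunction.vonMangoldt_nonneg
  · exact le_rfl

theorem twoPart_nonneg (n : ℕ) : 0 ≤ twoPart n := by
  rw [twoPart]
  split_ifs
  · exact ArithmeticFunction.vonMangoldt_nonneg
  · exact le_rfl

/-- **The proper powers.** -/
theorem exists_powPart_ge {a : ℝ} (ha0 : 0 ≤ a) (ha : a < 1) :
    ∃ C : ℝ, 0 ≤ C ∧ ∀ x : ℝ, 1 ≤ x →
      2 * a / 3 * (x * √x) - C * (x * x ^ (2 / 5 : ℝ)) ≤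
        ∑ n ∈ Finset.Icc 1 ⌊x⌋₊, powPart n * (x - n) := by
  obtain ⟨B, hB, hpsi⟩ := exists_psi_ge ha
  obtain ⟨S, hS, hcube⟩ := exists_sum_abs_le (σ := 2 / 5) (a := cubePart) (by norm_num)
    (FA.PrimeRace.summable_cubePart (by simp; norm_num))
  obtain ⟨T, hT, htwo⟩ := exists_sum_abs_le (σ := 1 / 2) (a := twoPart) (by norm_num)
    (FA.PrimeRace.summable_twoPart (by simp))
  refine ⟨2 * a + (a + B) + T + S, by positivity, fun x hx => ?_⟩
  have hx0 : 0 < x := by linarith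
  set s := √x with hs
  have hs1 : 1 ≤ s := Real.one_le_sqrt.2 hx
  have hss : s * s = x := Real.mul_self_sqrt hx0.le
  set M := ⌊s⌋₊
  have hM1 : (M : ℝ) ≤ s := Nat.floor_le (by linarith)
  have hM2 : s < M + 1 := Nat.lt_floor_add_one s
  have hM0 : (0 : ℝ) ≤ M := Nat.cast_nonneg M
  have hMx : (M : ℝ) ^ 2 ≤ x := by nlinarith
  have hmem : ∀ n ∈ Finset.Icc 1 ⌊x⌋₊, (n : ℝ) ≤ x := fun n hn =>
    (Nat.le_floor_iff hx0.le).1 (Finset.mem_Icc.1 hn).2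
  -- the higher powers
  have h1 : |∑ n ∈ Finset.Icc 1 ⌊x⌋₊, cubePart n * (x - n)| ≤ x * (S * x ^ (2 / 5 : ℝ)) := by
    refine (Finset.abs_sum_le_sum_abs _ _).trans ?_
    refine le_trans ?_ (mul_le_mul_of_nonneg_left (hcube x hx) hx0.le)
    rw [Finset.mul_sum]
    refine Finset.sum_le_sum fun n hn => ?_
    rw [abs_mul, abs_of_nonneg (sub_nonneg.2 (hmem n hn)), mul_comm x]
    exact mul_le_mul_of_nonneg_left (by linarith [(Nat.cast_nonneg n : (0 : ℝ) ≤ n)])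
      (abs_nonneg _)
  -- the squares
  have h2 : ∑ m ∈ Finset.Icc 1 M, (Λ m - twoPart m) * (x - (m : ℝ) ^ 2) ≤
      ∑ n ∈ Finset.Icc 1 ⌊x⌋₊, sqPart n * (x - n) := by
    have e : ∑ m ∈ Finset.Icc 1 M, (Λ m - twoPart m) * (x - (m : ℝ) ^ 2) =
        ∑ n ∈ (Finset.Icc 1 M).image (fun m => m * m), sqPart n * (x - n) := by
      rw [Finset.sum_image fun i _ j _ h => Nat.mul_self_inj.1 h]
      refine Finset.sum_congr rfl fun m _ => ?_
      rw [sqPart_sq, Nat.cast_mul, pow_two]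
    rw [e]
    refine Finset.sum_le_sum_of_subset_of_nonneg (fun n hn => ?_)
      fun n hn _ => mul_nonneg (sqPart_nonneg n) (sub_nonneg.2 (hmem n hn))
    obtain ⟨m, hm, rfl⟩ := Finset.mem_image.1 hn
    obtain ⟨hm1, hm2⟩ := Finset.mem_Icc.1 hm
    refine Finset.mem_Icc.2 ⟨Nat.one_le_iff_ne_zero.2 (by simp; omega), Nat.le_floor ?_⟩
    have : (m : ℝ) ≤ M := Nat.cast_le.2 hm2
    push_cast
    nlinarith [(Nat.cast_nonneg m : (0 : ℝ) ≤ m)]
  have h3 : ∑ m ∈ Finset.Icc 1 M, twoPart m * (x - (m : ℝ) ^ 2) ≤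
      x * (T * s ^ (1 / 2 : ℝ)) := by
    refine le_trans ?_ (mul_le_mul_of_nonneg_left (htwo s hs1) hx0.le)
    rw [Finset.mul_sum]
    refine Finset.sum_le_sum fun m _ => ?_
    rw [abs_of_nonneg (twoPart_nonneg m), mul_comm x]
    exact mul_le_mul_of_nonneg_left (by nlinarith) (twoPart_nonneg m)
  have h4 : 2 * a / 3 * (M : ℝ) ^ 3 - (a + B) * (M : ℝ) ^ 2 ≤
      ∑ m ∈ Finset.Icc 1 M, Λ m * (x - (m : ℝ) ^ 2) :=
    (sum_sq_weight_ge ha0 hB hpsi M).trans (Finset.sum_le_sum fun m _ =>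
      mul_le_mul_of_nonneg_left (by linarith) ArithmeticFunction.vonMangoldt_nonneg)
  have hdist : ∑ m ∈ Finset.Icc 1 M, (Λ m - twoPart m) * (x - (m : ℝ) ^ 2) =
      (∑ m ∈ Finset.Icc 1 M, Λ m * (x - (m : ℝ) ^ 2)) -
        ∑ m ∈ Finset.Icc 1 M, twoPart m * (x - (m : ℝ) ^ 2) := by
    rw [← Finset.sum_sub_distrib]
    exact Finset.sum_congr rfl fun m _ => by ring
  have hsplit : ∑ n ∈ Finset.Icc 1 ⌊x⌋₊, powPart n * (x - n) =
      (∑ n ∈ Finset.Icc 1 ⌊x⌋₊, sqPart n * (x - n)) +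
        ∑ n ∈ Finset.Icc 1 ⌊x⌋₊, cubePart n * (x - n) := by
    rw [← Finset.sum_add_distrib]
    exact Finset.sum_congr rfl fun n _ => by rw [cubePart]; ring
  have hcubeM : x * s - 3 * x ≤ (M : ℝ) ^ 3 := by
    have h' : (s - 1) ^ 3 ≤ (M : ℝ) ^ 3 := pow_le_pow_left₀ (by linarith) (by linarith) 3
    nlinarith
  have hpow1 : x * s ^ (1 / 2 : ℝ) ≤ x * x ^ (2 / 5 : ℝ) := by
    refine mul_le_mul_of_nonneg_left ?_ hx0.le
    rw [hs, Real.sqrt_eq_rpow, ← Real.rpow_mul hx0.le]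
    exact Real.rpow_le_rpow_of_exponent_le hx (by norm_num)
  have hpow2 : x ≤ x * x ^ (2 / 5 : ℝ) :=
    le_mul_of_one_le_right hx0.le (Real.one_le_rpow hx (by norm_num))
  have h5 := (abs_le.1 h1).1
  nlinarith [mul_le_mul_of_nonneg_left hcubeM (by linarith : (0 : ℝ) ≤ 2 * a / 3),
    mul_le_mul_of_nonneg_left hMx (by linarith : (0 : ℝ) ≤ a + B),
    mul_le_mul_of_nonneg_left hpow1 hT,
    mul_le_mul_of_nonneg_left hpow2 (by linarith : (0 : ℝ) ≤ 2 * a + (a + B))]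

end FA.ChebyshevBias

end
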