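import Fermat.Agent.ChebyshevBias.Numeric
import Fermat.Agent.ChebyshevBias.Squares
import Fermat.Agent.GRHProgressions.Explicit

/-!
# The bias modulo `4` on the Riemann hypothesis

`D x = ∑_{p ≤ x} χ₄ p log p (x - p) = ψ₁ (x, χ₄) - (proper powers)` is `≤ -x √x / 6` eventually.
-/

set_option autoImplicit false

noncomputable section

namespace FA.ChebyshevBias

open Complex Filter Topology MeasureTheory
open FA.OrderTheta (chiFourC)
open FA.PrimeTwoSquares (chi)
open FA.DirichletLandau FA.DirichletHadamard FA.GRHProgressions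
open FA.Gallagher (psiOneChar twist zeroPow)
open FA.PrimeRace (raceLog powPart chiFourC_natCast chiFourC_ne_one)
open scoped ArithmeticFunction.vonMangoldt Real

/-- `D x = ∑_{p ≤ x} χ₄ p log p (x - p)`. -/
def weightedRace (x : ℝ) : ℝ :=
  ∑ p ∈ (Finset.Icc 1 ⌊x⌋₊).filter Nat.Prime, chi p * Real.log p * (x - p)

theorem weightedRace_eq_sum (x : ℝ) :
    weightedRace x = -∑ n ∈ Finset.Icc 1 ⌊x⌋₊, raceLog n * (x - n) := by
  rw [weightedRace, Finset.sum_filter, ← Finset.sum_neg_distrib]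
  refine Finset.sum_congr rfl fun n _ => ?_
  rw [raceLog]
  split_ifs <;> ring

theorem weightedRace_eq_psi (x : ℝ) :
    weightedRace x = (psiOneChar chiFourC x).re -
      ∑ n ∈ Finset.Icc 1 ⌊x⌋₊, powPart n * (x - n) := by
  rw [weightedRace_eq_sum, psiOneChar, re_sum, ← Finset.sum_sub_distrib, ← Finset.sum_neg_distrib]
  refine Finset.sum_congr rfl fun n _ => ?_
  rw [twist, chiFourC_natCast, ← ofReal_mul, ← ofReal_mul, ofReal_re, powPart, raceLog,
    FA.Littlewood.properPowers]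
  split_ifs <;> ring

theorem norm_zeroPow_le_sq {ρ : ℂ} (h : ρ.re = 1 / 2) {y : ℝ} (hy : 0 < y) :
    ‖zeroPow y ρ‖ ≤ y * √y * (1 / ‖ρ‖ ^ 2) := by
  have h0 : 0 < ‖ρ‖ := norm_pos_iff.2 fun h' => by simp [h'] at h
  rw [zeroPow, norm_div, norm_mul, norm_cpow_eq_rpow_re_of_pos hy, add_re, one_re, h,
    Real.rpow_add hy, Real.rpow_one, ← Real.sqrt_eq_rpow, mul_one_div, mul_comm √y, sq]
  exact div_le_div_of_nonneg_left (by positivity) (by positivity)
    (mul_le_mul_of_nonneg_left (norm_le_norm_add_one (by rw [h]; norm_num)) h0.le)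

theorem exists_psiOne_le (hG : GRHFor chiFourC) :
    ∃ K : ℝ, 0 ≤ K ∧ ∀ x : ℝ, 1 ≤ x →
      (psiOneChar chiFourC x).re ≤ 61 / 125 * (x * √x) + K * (x * x ^ (2 / 5 : ℝ)) := by
  have hp := isPrimitive_chiFourC
  have hχ := chiFourC_ne_one
  obtain ⟨K, hK, hneg⟩ := exists_negL_quarter
  obtain ⟨hs, hsum⟩ := summable_inv_sq hG
  set L := 25 * (K * (Real.log (4 : ℕ) + 10)) with hL
  have hL0 : 0 ≤ L := by
    have := Real.log_natCast_nonneg 4
    positivity
  set J := ∫ t : ℝ, (1 + |t|) ^ (-(15 / 8) : ℝ)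
  have hJ0 : 0 ≤ J := integral_nonneg fun t => by positivity
  refine ⟨L * J, by positivity, fun x hx => ?_⟩
  have hx0 : 0 < x := by linarith
  have hint : ‖∫ t : ℝ, intF chiFourC x (((1 / 4 : ℝ) : ℂ) + t * I)‖ ≤
      L * x ^ (5 / 4 : ℝ) * J := by
    refine (norm_integral_le_of_norm_le ((integrable_bracket
      (show (1 : ℝ) < 15 / 8 by norm_num)).const_mul (L * x ^ (5 / 4 : ℝ)))
      (Eventually.of_forall fun t => ?_)).trans (le_of_eq (integral_const_mul _ _))
    have ht : 0 < 1 + |t| := by positivity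
    rw [intF, norm_mul]
    refine (mul_le_mul ((norm_zeroPow_le (by simp) hx0).trans (le_of_eq ?_))
      (hneg 4 chiFourC hp hχ hG t) (norm_nonneg _) (by positivity : 0 ≤ 25 * x ^ (5 / 4 : ℝ) /
        (1 + |t|) ^ 2)).trans (le_of_eq ?_)
    · simp
      norm_num
    · rw [show (-(15 / 8) : ℝ) = 1 / 8 - (2 : ℕ) by norm_num, Real.rpow_sub ht, Real.rpow_natCast,
        hL]
      ring
  have hz : ‖∑' ρ, (lMult chiFourC ρ : ℂ) * zeroPow x ρ‖ ≤ x * √x * (61 / 125) := by
    refine (norm_tsum_le_tsum_norm (summable_zeroPow hp hχ hG hx0)).trans ?_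
    refine ((summable_zeroPow hp hχ hG hx0).tsum_le_tsum (fun ρ => ?_)
      (hs.mul_left (x * √x))).trans ?_
    · by_cases hm : lMult chiFourC ρ = 0
      · simp [hm]
      have hre := re_eq_half hp hχ hG (mem_strip_of_mult hp hχ hm).1
      rw [norm_mul, Complex.norm_natCast]
      refine (mul_le_mul_of_nonneg_left (norm_zeroPow_le_sq hre hx0)
        (Nat.cast_nonneg _)).trans (le_of_eq ?_)
      ring
    · rw [tsum_mul_left]
      exact mul_le_mul_of_nonneg_left hsum (by positivity)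
  rw [psiOneChar_eq_sum hp hχ hG hx]
  refine (re_le_norm _).trans ((norm_sub_le _ _).trans ?_)
  have hc : ‖(1 / (2 * π) : ℂ)‖ ≤ 1 := by
    rw [norm_div, norm_one, norm_mul, Complex.norm_ofNat, Complex.norm_real,
      Real.norm_of_nonneg Real.pi_pos.le, div_le_one (by positivity)]
    linarith [Real.two_le_pi]
  have hpow : x ^ (5 / 4 : ℝ) ≤ x * x ^ (2 / 5 : ℝ) := by
    rw [← Real.rpow_one_add' hx0.le (by norm_num)]
    exact Real.rpow_le_rpow_of_exponent_le hx (by norm_num)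
  have h1 := mul_le_mul hc hint (norm_nonneg _) zero_le_one
  rw [← norm_mul, one_mul] at h1
  have h2 := mul_le_mul_of_nonneg_left hpow (mul_nonneg hL0 hJ0)
  linarith

/-- **Chebyshev's bias.** -/
theorem eventually_weightedRace_le (hG : GRHFor chiFourC) :
    ∀ᶠ x : ℝ in atTop, weightedRace x ≤ -(1 / 6) * (x * √x) := by
  obtain ⟨C, hC, hpow⟩ := exists_powPart_ge (a := 999 / 1000) (by norm_num) (by norm_num)
  obtain ⟨K, hK, hpsi⟩ := exists_psiOne_le hG
  have hlim : ∀ᶠ x : ℝ in atTop, (C + K) * 250 ≤ x ^ (1 / 10 : ℝ) :=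
    (tendsto_rpow_atTop (by norm_num)).eventually_ge_atTop _
  filter_upwards [hlim, eventually_ge_atTop 1] with x hx hx1
  have hx0 : 0 < x := by linarith
  have e : x * √x = x * x ^ (2 / 5 : ℝ) * x ^ (1 / 10 : ℝ) := by
    rw [Real.sqrt_eq_rpow, mul_assoc, ← Real.rpow_add hx0]
    norm_num
  have h3 := mul_le_mul_of_nonneg_left hx (show 0 ≤ x * x ^ (2 / 5 : ℝ) by positivity)
  rw [weightedRace_eq_psi]
  have := hpow x hx1
  have := hpsi x hx1
  have : 0 ≤ x * √x := by positivity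
  linarith

end FA.ChebyshevBias

end
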