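import Fermat.Agent.PrimeRace.Theta
import Fermat.Agent.ChebyshevBias.Forward

/-!
# A one-sided bound for the weighted race keeps zeros out

`D (n + 1) = -∑_{k ≤ n} R k` for the race `R` of `θ`; the Dirichlet series of these sums continues
to `re z > 1/2` off the zeros of `L (s, χ₄)`, so by Landau's theorem `e D n ≤ C n ^ (α + 1)` leaves
no zero in `re s > α`.
-/

set_option autoImplicit false

noncomputable section

namespace FA.ChebyshevBias

open Complex Filter Topology Set
open FA.OrderTheta (chiFourC)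
open FA.OneSided (summatory defect)
open FA.PrimeRace

/-- The Dirichlet series of the partial sums, for any exponent of growth. -/
theorem hasSum_summatory_of_growth {a : ℕ → ℂ} {K θ : ℝ}
    (hA : ∀ n : ℕ, 0 < n → ‖summatory a n‖ ≤ K * (n : ℝ) ^ θ)
    (hθ0 : 0 ≤ θ) {z : ℂ} (hz : θ < z.re) (hL : LSeriesSummable a z) :
    HasSum (fun n : ℕ => summatory a n * (n : ℂ) ^ (-(z + 1)))
      ((LSeries a z + defect a z) / z) := by
  have hz0 : z ≠ 0 := fun h => by simp [h] at hz; linarith
  have hE := FA.OneSided.summable_summand hA (show θ - 1 < z.re by linarith)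
    (show -1 < z.re by linarith)
  have hsum : Summable fun n : ℕ => summatory a n * (n : ℂ) ^ (-(z + 1)) := by
    refine Summable.of_norm_bounded
      ((Real.summable_nat_rpow.2 (by linarith : θ - z.re - 1 < -1)).mul_left (max K 0)) fun n => ?_
    rcases Nat.eq_zero_or_pos n with rfl | hn
    · simp [FA.OneSided.summatory_zero, Real.zero_rpow (show θ - z.re - 1 ≠ 0 by linarith)]
    have hn' : (0 : ℝ) < n := Nat.cast_pos.2 hn
    rw [norm_mul, norm_natCast_cpow_of_pos hn]
    refine (mul_le_mul_of_nonneg_right ((hA n hn).trans (mul_le_mul_of_nonneg_right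
      (le_max_left K 0) (by positivity))) (by positivity)).trans (le_of_eq ?_)
    rw [mul_assoc, ← Real.rpow_add hn']
    congr 2
    simp
    ring
  have hA' : Summable fun n : ℕ =>
      summatory a n * ((n : ℂ) ^ (-z) - ((n : ℂ) + 1) ^ (-z)) := by
    refine ((hsum.mul_left z).sub hE).congr fun n => ?_
    rw [FA.OneSided.step]
    ring
  have hzero : Tendsto (fun N : ℕ => summatory a N * ((N : ℂ) + 1) ^ (-z)) atTop (𝓝 0) := by
    refine squeeze_zero_norm (a := fun N : ℕ => max K 0 * ((N : ℝ) + 1) ^ (-(z.re - θ)))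
      (fun N => ?_) ?_
    · have h0 : (0 : ℝ) < (N : ℝ) + 1 := by positivity
      rw [norm_mul, show (N : ℂ) + 1 = (((N : ℝ) + 1 : ℝ) : ℂ) by push_cast; ring,
        norm_cpow_eq_rpow_re_of_pos h0, neg_re]
      rcases Nat.eq_zero_or_pos N with rfl | hN
      · simp [FA.OneSided.summatory_zero]
      refine (mul_le_mul_of_nonneg_right ((hA N hN).trans (mul_le_mul (le_max_left K 0)
        (Real.rpow_le_rpow (Nat.cast_nonneg N) (le_add_of_nonneg_right zero_le_one) hθ0)
        (by positivity) (le_max_right _ _))) (by positivity)).trans (le_of_eq ?_)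
      rw [mul_assoc, ← Real.rpow_add h0]
      ring_nf
    · have := ((tendsto_rpow_neg_atTop (by linarith : 0 < z.re - θ)).comp
        (tendsto_atTop_add_const_right atTop 1 tendsto_natCast_atTop_atTop)).const_mul (max K 0)
      simpa [Function.comp_def] using this
  have hAval : ∑' n, summatory a n * ((n : ℂ) ^ (-z) - ((n : ℂ) + 1) ^ (-z)) = LSeries a z := by
    refine tendsto_nhds_unique
      ((hA'.hasSum.tendsto_sum_nat).comp (tendsto_add_atTop_nat 1)) ?_
    have h := ((hL.LSeriesHasSum.tendsto_sum_nat).comp (tendsto_add_atTop_nat 1)).sub hzero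
    rw [sub_zero] at h
    refine h.congr fun N => ?_
    simp only [Function.comp_apply]
    rw [← FA.OneSided.sum_range_abel]
  rw [← hAval]
  refine ((hA'.hasSum.add hE.hasSum).div_const z).congr_fun fun n => ?_
  rw [FA.OneSided.step]
  field_simp
  ring

/-- `∑_{k ≤ n} R k`. -/
def raceSum (n : ℕ) : ℝ := ∑ k ∈ Finset.Icc 1 n, thetaRace k

theorem weightedRace_succ : ∀ n : ℕ, weightedRace ((n + 1 : ℕ) : ℝ) = -raceSum n := by
  have hR : ∀ n : ℕ, ∑ k ∈ Finset.Icc 1 n, raceLog k * ((n + 1 : ℕ) - (k : ℝ)) = raceSum n := by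
    intro n
    induction n with
    | zero => simp [raceSum]
    | succ n ih =>
      rw [Finset.sum_Icc_succ_top (by omega), raceSum, Finset.sum_Icc_succ_top (by omega),
        ← raceSum, ← ih, thetaRace, Finset.sum_Icc_succ_top (by omega), ← add_assoc,
        ← Finset.sum_add_distrib]
      congr 1
      · exact Finset.sum_congr rfl fun k _ => by push_cast; ring
      · push_cast
        ring
  intro n
  rw [weightedRace_eq_sum, Nat.floor_natCast, Finset.sum_Icc_succ_top (by omega), hR n, sub_self,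
    mul_zero, add_zero]

/-- The deviation of the series of `raceSum`. -/
def raceDefect : ℂ → ℂ := defect fun n => (thetaRace n : ℂ)

theorem norm_summatory_thetaRace_le (n : ℕ) (_ : 0 < n) :
    ‖summatory (fun n => (thetaRace n : ℂ)) n‖ ≤ Real.log 4 * (n : ℝ) ^ (2 : ℝ) := by
  rw [FA.OneSided.summatory]
  refine (norm_sum_le _ _).trans ((Finset.sum_le_sum (g := fun _ => Real.log 4 * (n : ℝ))
    fun k hk => ?_).trans (le_of_eq ?_))
  · obtain ⟨hk1, hk2⟩ := Finset.mem_Icc.1 hk
    have h := norm_summatory_raceLog_le k hk1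
    rw [summatory_raceLog, Real.rpow_one] at h
    exact h.trans (mul_le_mul_of_nonneg_left (Nat.cast_le.2 hk2) (Real.log_nonneg (by norm_num)))
  · rw [Finset.sum_const, Nat.card_Icc, nsmul_eq_mul, Real.rpow_two]
    simp
    ring

theorem differentiableAt_raceDefect {z : ℂ} (hz : 1 < z.re) :
    DifferentiableAt ℂ raceDefect z :=
  (FA.OneSided.differentiableOn_defect norm_summatory_thetaRace_le zero_le_two).differentiableAt
    ((isOpen_lt continuous_const continuous_re).mem_nhds (show (2 : ℝ) - 1 < z.re by linarith))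

theorem hasSum_raceSum {z : ℂ} (hz : 1 < z.re) :
    HasSum (fun n : ℕ => ((raceSum n / n : ℝ) : ℂ) * (n : ℂ) ^ (-(z + 1)))
      (((raceReg z + (2 * z - 1)⁻¹ + thetaDefect z) / z + raceDefect (z + 1)) / (z + 1)) := by
  have hu : 2 < (z + 1).re := by simp; linarith
  have hne : z + 1 ≠ 0 := fun h => by simp [h] at hu; linarith
  have hser : LSeriesHasSum (fun n => (thetaRace n : ℂ)) (z + 1)
      ((raceReg z + (2 * z - 1)⁻¹ + thetaDefect z) / z) := by
    refine (hasSum_thetaRace hz).congr_fun fun n => ?_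
    rcases Nat.eq_zero_or_pos n with rfl | hn
    · simp [thetaRace]
    rw [LSeries.term_of_ne_zero hn.ne', cpow_neg, div_eq_mul_inv]
  have h := hasSum_summatory_of_growth norm_summatory_thetaRace_le zero_le_two hu
    hser.LSeriesSummable
  rw [hser.LSeries_eq] at h
  refine h.congr_fun fun n => ?_
  rcases Nat.eq_zero_or_pos n with rfl | hn
  · simp [FA.OneSided.summatory_zero]
  rw [raceSum, FA.OneSided.summatory, ofReal_div, ofReal_sum, ofReal_natCast,
    show -(z + 1 + 1) = -(z + 1) + (-1 : ℂ) by ring, cpow_add _ _ (Nat.cast_ne_zero.2 hn.ne'),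
    cpow_neg_one]
  ring

/-- **A one-sided bound for the weighted race keeps zeros out.** -/
theorem lChi_ne_zero_of_weighted {α C e : ℝ} (hα : 1 / 2 ≤ α) (he : e ≠ 0)
    (h : ∀ᶠ n : ℕ in atTop, e * weightedRace n ≤ C * (n : ℝ) ^ (α + 1)) {ρ : ℂ} (hρ : α < ρ.re) :
    lChi ρ ≠ 0 := by
  intro h0
  rcases le_or_gt 1 ρ.re with h1 | h1
  · exact lChi_ne_zero_of_one_le_re h1 h0
  have hU : AnalyticOnNhd ℂ lChi univ :=
    differentiable_lChi.differentiableOn.analyticOnNhd isOpen_univ
  have htop : analyticOrderAt lChi ρ ≠ ⊤ := by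
    refine hU.analyticOrderAt_ne_top_of_isPreconnected isPreconnected_univ (x := (2 : ℂ))
      (mem_univ _) (mem_univ _) ?_
    rw [analyticOrderAt_eq_zero.2 (Or.inr (lChi_ne_zero_of_one_le_re (by norm_num)))]
    exact ENat.zero_ne_top
  obtain ⟨g, hg, hg0, heq⟩ := (hU ρ (mem_univ ρ)).analyticOrderAt_ne_top.1 htop
  generalize analyticOrderNatAt lChi ρ = m at heq
  have hm : m ≠ 0 := by
    rintro rfl
    have := heq.eq_of_nhds
    simp only [pow_zero, one_smul] at this
    exact hg0 (this ▸ h0)
  classical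
  obtain ⟨q, hq⟩ : ∃ q : ℂ → ℂ, q = fun z => if z = ρ then g ρ else lChi z / (z - ρ) ^ m :=
    ⟨_, rfl⟩
  have hfac : ∀ z, lChi z = (z - ρ) ^ m * q z := fun z => by
    rw [hq]
    simp only
    split_ifs with hz
    · rw [hz, sub_self, zero_pow hm, zero_mul, h0]
    · rw [mul_div_cancel₀ _ (pow_ne_zero _ (sub_ne_zero.2 hz))]
  have hqd : Differentiable ℂ q := by
    intro z
    by_cases hz : z = ρ
    · subst hz
      refine hg.differentiableAt.congr_of_eventuallyEq ?_
      filter_upwards [heq] with w hw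
      rw [hq]
      simp only
      split_ifs with hwz
      · rw [hwz]
      · rw [hw, smul_eq_mul, mul_div_cancel_left₀ _ (pow_ne_zero _ (sub_ne_zero.2 hwz))]
    · refine ((differentiable_lChi z).div ((differentiableAt_id.sub_const ρ).pow m)
        (pow_ne_zero _ (sub_ne_zero.2 hz))).congr_of_eventuallyEq ?_
      filter_upwards [eventually_ne_nhds hz] with w hw
      simp [hq, hw]
  have hqρ : q ρ = g ρ := by simp [hq]
  have hne : ∀ z, lChi z ≠ 0 → z - ρ ≠ 0 ∧ q z ≠ 0 := fun z hz => by
    rw [hfac, mul_ne_zero_iff, pow_ne_zero_iff hm] at hz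
    exact hz
  have hbound : ∀ᶠ n : ℕ in atTop,
      -e * (raceSum n / n) ≤ |C| * (2 : ℝ) ^ (α + 1) * (n : ℝ) ^ α := by
    filter_upwards [(tendsto_add_atTop_nat 1).eventually h, eventually_ge_atTop 1] with n hn hn1
    rw [weightedRace_succ] at hn
    have hn0 : (0 : ℝ) < n := Nat.cast_pos.2 hn1
    rw [← mul_div_assoc, div_le_iff₀ hn0, mul_assoc, ← Real.rpow_add_one hn0.ne', mul_assoc,
      ← Real.mul_rpow two_pos.le hn0.le]
    refine le_trans (by linarith) ((mul_le_mul_of_nonneg_right (le_abs_self C)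
      (by positivity)).trans (mul_le_mul_of_nonneg_left (Real.rpow_le_rpow (by positivity) ?_
        (by linarith)) (abs_nonneg C)))
    have : (1 : ℝ) ≤ n := Nat.one_le_cast.2 hn1
    push_cast
    linarith
  obtain ⟨Gn, hGn⟩ : ∃ Gn : ℂ → ℂ, Gn = fun z => m * q z + (z - ρ) * deriv q z := ⟨_, rfl⟩
  have hzero := FA.OneSided.numerator_eq_zero_of_one_sided (γ := α) (by linarith)
    (neg_ne_zero.2 he) hbound
    (Gn := Gn) (Gd := fun z => (z + 1) * (z * ((z - ρ) * q z)))
    (R := fun z => ((squareReg z + (2 * z - 1)⁻¹ + thetaDefect z) / z + raceDefect (z + 1)) /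
      (z + 1)) ?_ ?_ ?_ ?_ ?_ hρ (by simp)
  · rw [hGn] at hzero
    simp only [sub_self, zero_mul, add_zero, mul_eq_zero, Nat.cast_eq_zero, hm, false_or] at hzero
    exact hg0 (hqρ ▸ hzero)
  · rw [hGn]
    exact fun z _ => ((hqd z).const_mul _).add
      ((differentiableAt_id.sub_const ρ).mul (hqd.deriv z)) |>.differentiableWithinAt
  · exact fun z _ => ((differentiableAt_id.add_const 1).mul (differentiableAt_id.mul
      ((differentiableAt_id.sub_const ρ).mul (hqd z)))).differentiableWithinAt
  · intro z hz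
    have hz' : α < z.re := hz
    have hz2 : 1 / 2 < z.re := by linarith
    have hz1 : 1 < (z + 1).re := by simp; linarith
    refine DifferentiableAt.differentiableWithinAt ?_
    refine (((((differentiableAt_squareReg (by linarith) (zeta₁_two_mul_ne_zero hz2.le)).add
      (((differentiableAt_id.const_mul 2).sub_const 1).inv (two_mul_sub_ne_zero hz2))).add
        (differentiableAt_thetaDefect (by linarith))).div differentiableAt_id ?_).add
      ((differentiableAt_raceDefect hz1).fun_comp' z (differentiableAt_id.add_const 1))).div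
        (differentiableAt_id.add_const 1) ?_
    · exact fun h0 => by
        simp [show z = 0 from h0] at hz2
        linarith
    · exact fun h0 => by
        simp [show z + 1 = 0 from h0] at hz1
        linarith
  · intro x hx
    obtain ⟨a, b⟩ := hne x (lChi_real_ne_zero (by linarith))
    refine mul_ne_zero ?_ (mul_ne_zero (ofReal_ne_zero.2 (by linarith)) (mul_ne_zero a b))
    rw [← ofReal_one, ← ofReal_add]
    exact ofReal_ne_zero.2 (by linarith)
  · intro z hz
    have hz0 : z ≠ 0 := fun h => by simp [h] at hz; linarith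
    have hz1 : z + 1 ≠ 0 := fun h => by
      have := congrArg Complex.re h
      simp at this
      linarith
    have hL := lChi_ne_zero_of_one_le_re hz.le
    obtain ⟨a, b⟩ := hne z hL
    refine ⟨mul_ne_zero hz1 (mul_ne_zero hz0 (mul_ne_zero a b)), ?_⟩
    have hd : deriv lChi z = m * (z - ρ) ^ (m - 1) * q z + (z - ρ) ^ m * deriv q z := by
      rw [show lChi = fun w => (w - ρ) ^ m * q w from funext hfac]
      have h1 : HasDerivAt (fun w : ℂ => (w - ρ) ^ m) ((m : ℂ) * (z - ρ) ^ (m - 1)) z := by
        simpa using ((hasDerivAt_id z).sub_const ρ).fun_pow m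
      exact (h1.mul (hqd z).hasDerivAt).deriv
    have key : ((raceReg z + (2 * z - 1)⁻¹ + thetaDefect z) / z + raceDefect (z + 1)) / (z + 1) =
        Gn z / ((z + 1) * (z * ((z - ρ) * q z))) +
          ((squareReg z + (2 * z - 1)⁻¹ + thetaDefect z) / z + raceDefect (z + 1)) / (z + 1) := by
      have hlog : deriv lChi z / lChi z = Gn z / ((z - ρ) * q z) := by
        rw [hd, hfac z, hGn]
        obtain ⟨k, rfl⟩ := Nat.exists_eq_succ_of_ne_zero hm
        simp only [Nat.add_sub_cancel, Nat.succ_eq_add_one, pow_succ]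
        field_simp
      rw [raceReg, hlog]
      generalize (2 * z - 1)⁻¹ = X
      generalize (z - ρ) * q z = Y
      generalize z + 1 = W
      simp only [div_eq_mul_inv, mul_inv]
      ring
    rw [← key]
    exact hasSum_raceSum hz

/-- **An eventually negative weighted race gives the Riemann hypothesis for `L (s, χ₄)`.** -/
theorem grhFor_of_weightedRace_neg (h : ∀ᶠ x : ℝ in atTop, weightedRace x < 0) :
    FA.DirichletHadamard.GRHFor chiFourC := by
  have hnat : ∀ᶠ n : ℕ in atTop,
      (1 : ℝ) * weightedRace n ≤ (0 : ℝ) * (n : ℝ) ^ ((1 / 2 : ℝ) + 1) :=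
    (tendsto_natCast_atTop_atTop.eventually h).mono fun n hn => by
      rw [one_mul, zero_mul]
      exact hn.le
  have key : ∀ w : ℂ, 1 / 2 < w.re → lChi w ≠ 0 := fun w hw =>
    lChi_ne_zero_of_weighted le_rfl one_ne_zero hnat hw
  intro ρ hρ h0 _
  rcases lt_trichotomy ρ.re (1 / 2) with h2 | h2 | h2
  · exact absurd (lChi_one_sub_eq_zero h0 hρ) (key (1 - ρ) (by simp; linarith))
  · exact h2
  · exact absurd hρ (key ρ h2)

end FA.ChebyshevBias

end
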