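import Fermat.Agent.KroneckerLimit.Gaussian
import Fermat.Agent.DirichletHadamard.Criteria
import Fermat.Agent.PrimeRace.Char
import Mathlib.Analysis.SpecialFunctions.Gamma.BohrMollerup
import Mathlib.Analysis.SpecialFunctions.Gamma.Digamma
import Mathlib.Analysis.Complex.ExponentialBounds

/-!
# `∑ 1/|ρ|² ≤ 61/125` over the zeros of `L (s, χ₄)`

The closed form of `∑ re (1/ρ)` with `L'/L (1, χ₄) = γ + 2 log 2 + 3 log π - 4 log Γ (1/4)`;
`Γ (1/4) = π √2 / Γ (3/4)` and `Γ (7/4) ≤ (Γ (3/2) Γ 2) ^ (1/2)` by convexity make it `≤ 61/250`.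
-/

set_option autoImplicit false

noncomputable section

namespace FA.ChebyshevBias

open Complex Filter Topology
open DirichletCharacter (LFunction completedLFunction)
open FA.OrderTheta (chiFourC)
open FA.DirichletZeroCount FA.DirichletLandau FA.DirichletHadamard
open scoped Real

theorem isPrimitive_chiFourC : chiFourC.IsPrimitive := by
  rw [DirichletCharacter.isPrimitive_def]
  have hd : chiFourC.conductor ∣ 2 ^ 2 := chiFourC.conductor_dvd_level
  obtain ⟨k, hk, hc⟩ := (Nat.dvd_prime_pow Nat.prime_two).1 hd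
  have hf := chiFourC.factorsThrough_conductor
  rw [hc] at hf
  interval_cases k
  · exact absurd ((DirichletCharacter.factorsThrough_one_iff _).1 hf) FA.PrimeRace.chiFourC_ne_one
  · obtain ⟨h, χ₀, he⟩ := hf
    have h1 : χ₀ = 1 := by
      refine MulChar.ext fun u => ?_
      rw [show u = 1 from Subsingleton.elim (α := (ZMod 2)ˣ) _ _]
      simp
    exact absurd (by rw [he, h1, map_one]) FA.PrimeRace.chiFourC_ne_one
  · exact hc

/-- `log Γ (1/4) ≥ (3/4) log π + log 2 - log (4/3)`. -/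
theorem log_Gamma_quarter_ge :
    3 / 4 * Real.log π + Real.log 2 - Real.log (4 / 3) ≤ Real.log (Real.Gamma (1 / 4)) := by
  have hconv := Real.convexOn_log_Gamma.2 (show (3 / 2 : ℝ) ∈ Set.Ioi 0 by norm_num)
    (show (2 : ℝ) ∈ Set.Ioi 0 by norm_num) (show (0 : ℝ) ≤ 1 / 2 by norm_num)
    (show (0 : ℝ) ≤ 1 / 2 by norm_num) (by norm_num)
  simp only [smul_eq_mul, Function.comp_apply, Real.Gamma_two, Real.log_one] at hconv
  rw [show (1 / 2 * (3 / 2) + 1 / 2 * 2 : ℝ) = 3 / 4 + 1 by norm_num,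
    show (3 / 2 : ℝ) = 1 / 2 + 1 by norm_num, Real.Gamma_add_one (by norm_num),
    Real.Gamma_add_one (by norm_num), Real.Gamma_one_half_eq] at hconv
  have h34 : 0 < Real.Gamma (3 / 4) := Real.Gamma_pos_of_pos (by norm_num)
  have h14 : 0 < Real.Gamma (1 / 4) := Real.Gamma_pos_of_pos (by norm_num)
  have hpi := Real.pi_pos
  have href := Real.Gamma_mul_Gamma_one_sub (1 / 4)
  rw [show (1 - 1 / 4 : ℝ) = 3 / 4 by norm_num, show π * (1 / 4) = π / 4 by ring,
    Real.sin_pi_div_four] at href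
  have hs2 : (0 : ℝ) < √2 := Real.sqrt_pos.2 two_pos
  have hl : Real.log (Real.Gamma (1 / 4)) + Real.log (Real.Gamma (3 / 4)) =
      Real.log π + Real.log 2 / 2 := by
    rw [← Real.log_mul h14.ne' h34.ne', href, Real.log_div hpi.ne' (by positivity),
      Real.log_div hs2.ne' two_ne_zero, Real.log_sqrt two_pos.le]
    ring
  rw [Real.log_mul (by norm_num) h34.ne', Real.log_mul (by norm_num) (Real.sqrt_pos.2 hpi).ne',
    Real.log_sqrt hpi.le, one_div (2 : ℝ), Real.log_inv] at hconv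
  rw [Real.log_div (by norm_num) (by norm_num)]
  rw [Real.log_div (by norm_num) (by norm_num)] at hconv
  linarith

theorem re_logDeriv_one_le :
    Real.log ((4 : ℕ) / π) / 2 + -Real.eulerMascheroniConstant / 2 +
      (deriv (LFunction chiFourC) 1 / LFunction chiFourC 1).re ≤ 61 / 250 := by
  obtain ⟨hL, hD⟩ := FA.KroneckerLimit.lFunction_chiFour_one_and_deriv
  rw [show FA.KroneckerLimit.chiFour = chiFourC from rfl] at hL hD
  have hpi := Real.pi_pos
  rw [hL, hD, ← ofReal_div, ofReal_re, mul_div_cancel_left₀ _ (by positivity),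
    Real.log_div (by norm_num) hpi.ne', show ((4 : ℕ) : ℝ) = 2 ^ 2 by norm_num, Real.log_pow]
  have hG := log_Gamma_quarter_ge
  rw [Real.log_div (by norm_num) (by norm_num), show (4 : ℝ) = 2 ^ 2 by norm_num,
    Real.log_pow] at hG
  have hlpi : Real.log 3 ≤ Real.log π := Real.log_le_log (by norm_num) Real.pi_gt_three.le
  have h3 := Real.one_sub_inv_le_log_of_pos (show (0 : ℝ) < 3 ^ 5 / 2 ^ 8 by norm_num)
  rw [Real.log_div (by norm_num) (by norm_num), Real.log_pow, Real.log_pow] at h3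
  push_cast at h3 hG ⊢
  linarith [Real.eulerMascheroniConstant_lt_two_thirds, Real.log_two_lt_d9, Real.log_two_gt_d9]

theorem sum_re_inv_le :
    ∑' ρ : ℂ, (lMult chiFourC ρ : ℝ) * (ρ⁻¹).re ≤ 61 / 250 := by
  have h := tsum_re_inv_closed isPrimitive_chiFourC FA.PrimeRace.chiFourC_ne_one
  have hg : gShift chiFourC = 1 := by
    rw [gShift, if_neg]
    rw [show chiFourC (-1) = -1 from FA.PrimeRace.chiFourC_odd]
    norm_num
  have hdig : (deriv Complex.Gamma ((1 + gShift chiFourC) / 2) /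
      Complex.Gamma ((1 + gShift chiFourC) / 2)).re = -Real.eulerMascheroniConstant := by
    rw [hg, show ((1 + ((1 : ℝ) : ℂ)) / 2 : ℂ) = 1 by norm_num, ← logDeriv_apply,
      ← Complex.digamma_def, Complex.digamma_one]
    simp
  rw [h, hdig]
  exact re_logDeriv_one_le

theorem normSq_inv_eq {ρ : ℂ} (h : ρ.re = 1 / 2) : 1 / ‖ρ‖ ^ 2 = 2 * (ρ⁻¹).re := by
  rw [inv_re, h, Complex.normSq_eq_norm_sq]
  ring

/-- On the hypothesis `∑ m / |ρ|² ≤ 61/125`. -/
theorem summable_inv_sq (hG : GRHFor chiFourC) :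
    Summable (fun ρ : ℂ => (lMult chiFourC ρ : ℝ) / ‖ρ‖ ^ 2) ∧
      ∑' ρ : ℂ, (lMult chiFourC ρ : ℝ) / ‖ρ‖ ^ 2 ≤ 61 / 125 := by
  have hp := isPrimitive_chiFourC
  have hχ := FA.PrimeRace.chiFourC_ne_one
  have e : (fun ρ : ℂ => (lMult chiFourC ρ : ℝ) / ‖ρ‖ ^ 2) =
      fun ρ : ℂ => 2 * ((lMult chiFourC ρ : ℝ) * (ρ⁻¹).re) := by
    funext ρ
    by_cases hm : lMult chiFourC ρ = 0
    · simp [hm]
    rw [div_eq_mul_one_div,
      normSq_inv_eq (re_eq_half_of_grh hp hχ hG (mem_strip_of_mult hp hχ hm).1)]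
    ring
  rw [e, tsum_mul_left]
  exact ⟨(summable_re_inv hp hχ).mul_left 2, by linarith [sum_re_inv_le]⟩

end FA.ChebyshevBias

end
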